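/-
Objects exchanged between C1, C2 and C3: cusp eigenforms over `F'` and over `F`.
-/
import Fermat.Agent.LT.Adelic.Space
import Fermat.Agent.LT.Data.Galois
import Mathlib.MeasureTheory.Integral.Average
import Mathlib.Analysis.Complex.Isometry
import Mathlib.MeasureTheory.Measure.Lebesgue.Complex

set_option autoImplicit false

open Fermat.Agent.Galois Fermat.Agent.LT.Adelic NumberField IsDedekindDomain MeasureTheory
open scoped MatrixGroups Topology

noncomputable section

namespace Fermat.Agent.LT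

theorem modThreeCyclotomicChar_eq_one_of_fixes {ζ : Qbar} (hζ : IsPrimitiveRoot ζ 3) {σ : GalQ}
    (hσ : σ ζ = ζ) : WeierstrassCurve.modThreeCyclotomicChar σ = 1 := by
  rw [WeierstrassCurve.modThreeCyclotomicChar_apply]
  refine Units.ext ?_
  refine ((modularCyclotomicCharacter.unique Qbar
    (IsAlgClosed.card_rootsOfUnity_eq (AlgebraicClosure ℚ) 3) (σ : Qbar ≃+* Qbar)) ?_).symm
  intro t ht
  obtain ⟨i, _, hi⟩ := hζ.eq_pow_of_pow_eq_one (ξ := (t : Qbar)) (by
    rw [← Units.val_pow_eq_pow_val, ht, Units.val_one])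
  rw [Units.val_one, ← hi]
  show σ (ζ ^ i) = (ζ ^ i) ^ (1 : ZMod 3).val
  rw [map_pow, hσ, show (1 : ZMod 3).val = 1 by decide, pow_one]

instance finiteDimensional_fieldF_inst : FiniteDimensional ℚ fieldF := by
  obtain ⟨ζ, hζ⟩ := HasEnoughRootsOfUnity.exists_primitiveRoot Qbar 3
  have hint : IsIntegral ℚ ζ := hζ.isIntegral (by norm_num) |>.tower_top
  have := IntermediateField.adjoin.finiteDimensional hint
  exact finiteDimensional_fixedField_of_le (L := IntermediateField.adjoin ℚ {ζ}) fun σ hσ =>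
    modThreeCyclotomicChar_eq_one_of_fixes hζ
      ((IntermediateField.mem_fixingSubgroup_iff _ σ).1 hσ ζ
        (IntermediateField.mem_adjoin_simple_self ℚ ζ))

instance numberField_fieldF : NumberField fieldF :=
  { to_charZero := inferInstance, to_finiteDimensional := inferInstance }

variable {K : Type*} [Field K] [NumberField K] {ι : Type*} [Fintype ι] [DecidableEq ι]
  {Φ : Frame K ι} {U : Subgroup (GfK K)}

/-- The constant term vanishes: the mean over boxes in the horizontal coordinates tends to `0` at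
every height and every finite coordinate (for a periodic continuous function this says that the
average over a period lattice is `0`). -/
def HasZeroMean (φ : Space Φ U → ℂ) : Prop :=
  ∀ (y : Yf U) (r : ι → ℝ) (hr : ∀ i, 0 < r i),
    Filter.Tendsto
      (fun R : ℝ => ⨍ z in Set.univ.pi (fun _ : ι => Metric.closedBall (0 : ℂ) R),
        φ (Space.mk (fun i => ⟨z i, r i, hr i⟩) y) ∂(volume : Measure (ι → ℂ)))
      Filter.atTop (𝓝 0)

/-- A bounded continuous spherical cusp form with spectral parameter `0`. -/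
structure IsCuspEigen (φ : Space Φ U → ℂ) : Prop where
  invariant : IsInvariant φ
  continuous : ∀ y : Yf U, Continuous fun τ : ι → HSpace => φ (Space.mk τ y)
  bounded : ∃ C : ℝ, ∀ x, ‖φ x‖ ≤ C
  cuspidal : HasZeroMean φ
  spherical : IsSphericalEigen φ 0
  nonzero : ∃ x, φ x ≠ 0

/-- `φ` is an eigenfunction of `T_v` with normalised eigenvalue `a` (the sum over the
`q + 1` neighbours is `√q · a`). -/
def IsHeckeEigenAt (φ : Space Φ U → ℂ) (v : HeightOneSpectrum (𝓞 K)) (a : ℂ) : Prop :=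
  ∀ ϖ : (FiniteAdeleRing (𝓞 K) K)ˣ, IsUniformiserAt v ϖ →
    heckeOp (heckeMatrix K ϖ) φ = ((Real.sqrt (Ideal.absNorm v.asIdeal) : ℂ) * a) • φ

/-- The determinants of `U` contain every integral unit idele (so strong approximation gives one
component per ideal class). -/
def HasFullDet (U : Subgroup (GfK K)) : Prop :=
  ∀ u : (FiniteAdeleRing (𝓞 K) K)ˣ, (u : FiniteAdeleRing (𝓞 K) K) ∈ intAdele (𝓞 K) K →
    ((u⁻¹ : (FiniteAdeleRing (𝓞 K) K)ˣ) : FiniteAdeleRing (𝓞 K) K) ∈ intAdele (𝓞 K) K →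
    ∃ g ∈ U, Matrix.GeneralLinearGroup.det g = u

/-- Places outside the level `M`. -/
def PrimeTo (M : ℕ) (v : HeightOneSpectrum (𝓞 K)) : Prop := (M : 𝓞 K) ∉ v.asIdeal

/-- A set of places with summable reciprocal norms. -/
def SmallPlaceSet (X : Set (HeightOneSpectrum (𝓞 K))) : Prop :=
  Summable (X.indicator fun v => (1 : ℝ) / (Ideal.absNorm v.asIdeal : ℝ))

/-- C1 output: the dihedral form on `F'`, spherical outside 3 (and everywhere if `3 ∣ Δ`), with
eigenvalues the traces of the octahedral lift at all places prime to 3. -/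
def HasDihedralForm (W : WeierstrassCurve ℤ) (ρ : GalQ →* GL (Fin 2) (ZMod 3))
    [NumberField (fieldF' ρ)] : Prop :=
  ∃ (Φ : Frame (fieldF' ρ) (Fin 3)) (m : ℕ) (U : Subgroup (GfK (fieldF' ρ)))
    (φ : Space Φ U → ℂ),
    ((3 : ℤ) ∣ W.Δ → m = 0) ∧
    principalLevel _ ((3 ^ m : ℕ) : 𝓞 (fieldF' ρ)) ≤ U ∧ U ≤ principalLevel _ 1 ∧
    (∀ u : (FiniteAdeleRing (𝓞 (fieldF' ρ)) (fieldF' ρ))ˣ,
      diag2 u 1 ∈ principalLevel _ (1 : 𝓞 (fieldF' ρ)) → diag2 u 1 ∈ U) ∧
    IsCuspEigen φ ∧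
    ∀ w : HeightOneSpectrum (𝓞 (fieldF' ρ)), (3 : 𝓞 (fieldF' ρ)) ∉ w.asIdeal →
      ∀ σ, IsFrobOver (fieldF' ρ) w.asIdeal σ → IsHeckeEigenAt φ w (octTrace ρ σ)

/-- C2 output: a cusp eigenform on `F` with one component, level `M` (prime to 3 if `3 ∣ Δ`), at the
places prime to `3 M` with real eigenvalues bounded by 2, equal to the trace of the octahedral lift
outside a small set of places, and at every place splitting completely in `F'`. -/
def HasDescentForm (W : WeierstrassCurve ℤ) (ρ : GalQ →* GL (Fin 2) (ZMod 3)) : Prop :=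
  ∃ (Φ : Frame fieldF Unit) (M : ℕ) (U : Subgroup (GfK fieldF)) (φ : Space Φ U → ℂ)
    (a : HeightOneSpectrum (𝓞 fieldF) → ℂ) (X : Set (HeightOneSpectrum (𝓞 fieldF))),
    M ≠ 0 ∧ ((3 : ℤ) ∣ W.Δ → ¬ 3 ∣ M) ∧
    principalLevel _ (M : 𝓞 fieldF) ≤ U ∧ U ≤ principalLevel _ 1 ∧ HasFullDet U ∧
    IsCuspEigen φ ∧
    (∀ v, PrimeTo (3 * M) v → IsHeckeEigenAt φ v (a v) ∧ ‖a v‖ ≤ 2 ∧ (a v).im = 0) ∧
    SmallPlaceSet X ∧
    ∀ v, PrimeTo (3 * M) v → ∀ σ, IsFrobOver fieldF v.asIdeal σ →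
      v ∉ X ∨ ρ σ ∈ quatSubgroup → a v = octTrace ρ σ

end Fermat.Agent.LT
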