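/-
The statements C1, C2, C3 and their composition `StmtWeightOne`.
-/
import Fermat.Agent.LT.Boundary.Defs
import Fermat.Agent.LT.Interface

set_option autoImplicit false

open Fermat.Agent.Galois WeierstrassCurve CongruenceSubgroup NumberField
open scoped MatrixGroups ModularForm

noncomputable section

namespace Fermat.Agent.LT

/-- C1: the dihedral form on `F'`. -/
def StmtDihedral : Prop :=
  ∀ (W : WeierstrassCurve ℤ) (ρ : GalQ →* GL (Fin 2) (ZMod 3)) [NumberField (fieldF' ρ)],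
    W.Δ ≠ 0 → W.IsSemistableModel → IsThreeRep W ρ → HasDihedralForm W ρ

/-- C2: cubic descent. -/
def StmtDescent : Prop :=
  ∀ (W : WeierstrassCurve ℤ) (ρ : GalQ →* GL (Fin 2) (ZMod 3)) [NumberField (fieldF' ρ)],
    W.Δ ≠ 0 → W.IsSemistableModel → IsThreeRep W ρ → HasDihedralForm W ρ → HasDescentForm W ρ

/-- C3: theta lift to weight one (body of `StmtWeightOne` under `HasDescentForm`). -/
def StmtThetaLift : Prop :=
  ∀ (W : WeierstrassCurve ℤ) (ρ : GalQ →* GL (Fin 2) (ZMod 3)),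
    W.Δ ≠ 0 → W.IsSemistableModel → IsThreeRep W ρ → HasDescentForm W ρ →
    ∃ (N : ℕ) (_ : NeZero N) (ε : DirichletCharacter ℂ N) (f : CuspForm (Gamma1 N) 1),
      ((3 : ℤ) ∣ W.Δ → ¬ 9 ∣ N) ∧
      ModularFormClass.qCoeff f 1 = 1 ∧
      (∀ p : ℕ, p.Prime → ¬ p ∣ N → ∀ n : ℕ,
        ModularFormClass.qCoeff f (p * n) +
            ε (p : ZMod N) * (if p ∣ n then ModularFormClass.qCoeff f (n / p) else 0) =
          ModularFormClass.qCoeff f p * ModularFormClass.qCoeff f n) ∧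
      (∀ g ∈ Gamma0 N, (⇑f) ∣[(1 : ℤ)] g =
        ε ((g 1 1 : ℤ) : ZMod N) • ⇑f) ∧
      ∃ X : Set ℕ, DS.PrimeDensityLE X 0 ∧
        ∀ p : ℕ, p.Prime → ¬ p ∣ N → p % 3 = 1 → p ∉ X →
          ∀ A : ValuationSubring Qbar, A.LiesOverPrime p → ∀ σ, A.IsFrobeniusAt σ p →
            ModularFormClass.qCoeff f p = octTrace ρ σ

theorem stmtWeightOne_of (h1 : StmtDihedral) (h2 : StmtDescent) (h3 : StmtThetaLift) :
    StmtWeightOne := by
  intro W ρ hΔ hW hρ
  have : FiniteDimensional ℚ (fieldF' ρ) := finiteDimensional_fieldF' hρ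
  have : NumberField (fieldF' ρ) := { to_charZero := inferInstance, to_finiteDimensional := ‹_› }
  exact h3 W ρ hΔ hW hρ (h2 W ρ hΔ hW hρ (h1 W ρ hΔ hW hρ))

end Fermat.Agent.LT
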